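import Fermat.Agent.S36.Alg3.Spec
import Fermat.Agent.S36.H919.SheetsCtx

/-!
# S36 / ALG3 — leaf SHEETS (helper79)

`leafSheets : Alg3.LeafSheets` — every sheet of `x` in a three-component context is one of
`V₁`, `V₂`, `V₃`.  Direct from `H919.h919_hsheets_of_ctx` (helper919, on main).
-/

set_option autoImplicit false
set_option linter.unusedSectionVars false
set_option synthInstance.maxHeartbeats 400000
set_option maxHeartbeats 1600000

namespace Fermat.Agent.S36.H79

/-- **Leaf SHEETS** of ALG3, verbatim. -/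
theorem leafSheets : Fermat.Agent.S36.Alg3.LeafSheets := by
  intro R E F F' _ _ _ _ _ _ _ _ _ _ _ _ _ _ _ _ _ w hw q hq _ α β x x' V₁ V₂ V₃ V₁' V₂' h
  exact Fermat.Agent.S36.H919.h919_hsheets_of_ctx hw hq.two_le h

end Fermat.Agent.S36.H79
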